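/-
GATE-L / L10-CONCRETE (helper17), brick KUM-INCL: level change `N ∣ L` on the Kummer groups.

For `N ∣ L` (so `F_N ⊆ F_L` inside `ℚ̄((q))`, helper62's `AuxDescent.fk_le`):
* `kumIncl h m : Kum_m(F_N) →ₗ[ℤ/m] Kum_m(F_L)`   (pull-back `[u] ↦ [u]`),
* `kumNorm h m : Kum_m(F_L) →ₗ[ℤ/m] Kum_m(F_N)`   (push-forward `[v] ↦ [Nm_{F_L/F_N} v]`),
* both commute with the Galois action `gal`,
* `kumNorm_kumIncl : kumNorm ∘ kumIncl = [F_L : F_N] •` — so the kernel of `kumIncl` is killed by
  the degree `d = relfinrank F_N F_L`; NO coprimality of `d` and `m` is needed,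
* both commute with the transition maps `KumTower.trans` (`m' ∣ m`).
These are the concrete inputs `ι`, `ν`, `ν ∘ ι = d` of helper24's abstract aux-level descent.
-/
import Mathlib
import Fermat.Agent.GK.SS.AuxDescent
import Fermat.Agent.GK.UTr.KumAlpha
import Fermat.Agent.GJ.J2.Tower.ThetaLat
import Fermat.Agent.GJ.J1.FibreFinal

set_option autoImplicit false

noncomputable section

open AlgebraicCurve ModularCurve IntermediateField

namespace Fermat.Agent.GL.Descent.KumIncl

open Fermat.Agent.GJ.KumGroup Fermat.Agent.GJ.Kum.KumType Fermat.Agent.GJ.J1.Desc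
open Fermat.Agent.GJ Fermat.Agent.GJ.HInputs Fermat.Agent.GJ.KumTower
open Fermat.Agent.GK.Tate Fermat.Agent.S24 Fermat.Agent.GK.SS.AuxDescent
open Fermat.Agent.GK.UTr

local notation "GQ" => (AlgebraicClosure ℚ ≃ₐ[ℚ] AlgebraicClosure ℚ)

variable {N L : ℕ} [NeZero N] [NeZero L]

/-- the inclusion `F_N → F_L` as a `ℚ̄`-algebra homomorphism -/
def inclAlg (h : N ∣ L) : FK N →ₐ[Kb] FK L := inclusion (fk_le h)

@[simp]
theorem coe_inclAlg (h : N ∣ L) (x : FK N) :
    ((inclAlg h x : FK L) : LaurentSeries Kb) = (x : LaurentSeries Kb) :=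
  IntermediateField.coe_inclusion _ _

theorem inclUnits_eq (h : N ∣ L) (u : (FK N)ˣ) :
    ((inclUnits h u : (FK L)ˣ) : FK L) = inclAlg h (u : FK N) := coe_inclUnits' h u

/-- `[F_L : F_N]` along the inclusion is the relative finrank -/
theorem finrank_inclAlg (h : N ∣ L) :
    @Module.finrank (FK N) (FK L) _ _ (algebraAlong (inclAlg h)).toModule =
      relfinrank (modularFunctionFieldBar N) (modularFunctionFieldBar L) :=
  finrank_inclusion_eq_relfinrank (fk_le h)

theorem finiteAlong_inclAlg (h : N ∣ L) : FiniteAlong Kb (inclAlg h) := by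
  let _ : Algebra (FK N) (FK L) := algebraAlong (inclAlg h)
  show Module.Finite (FK N) (FK L)
  have hpos : 0 < Module.finrank (FK N) (FK L) := by
    rw [finrank_inclAlg h]; exact relfinrank_pos h
  exact Module.finite_of_finrank_pos hpos

theorem isIntegral_inclAlg (h : N ∣ L) : (inclAlg h).toRingHom.IsIntegral :=
  isIntegral_of_finiteAlong _ (finiteAlong_inclAlg h)

/-! ### the norm on units -/

/-- the norm `F_L → F_N` on units -/
def normInclUnits (h : N ∣ L) : (FK L)ˣ →* (FK N)ˣ := Units.map (normAlongHom (inclAlg h))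

@[simp] theorem coe_normInclUnits (h : N ∣ L) (v : (FK L)ˣ) :
    ((normInclUnits h v : (FK N)ˣ) : FK N) = normAlong (inclAlg h) (v : FK L) := rfl

theorem normInclUnits_mem (h : N ∣ L) (m : ℕ) (v : (FK L)ˣ) (hv : v ∈ pDivUnits Kb (FK L) m) :
    normInclUnits h v ∈ pDivUnits Kb (FK N) m :=
  fun P => dvd_ord_normAlong_of_dvd (inclAlg h) (isIntegral_inclAlg h) (finiteAlong_inclAlg h)
    (fun v => PlaceB.deg_eq_one v (jF N) (hx := Fermat.Agent.S24_helper62.isGen_jF N)) (m : ℤ)
    (v : FK L) v.ne_zero hv P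

/-- `Nm (incl u) = u ^ [F_L : F_N]` -/
theorem normInclUnits_inclUnits (h : N ∣ L) (u : (FK N)ˣ) :
    normInclUnits h (inclUnits h u) =
      u ^ relfinrank (modularFunctionFieldBar N) (modularFunctionFieldBar L) := by
  refine Units.ext ?_
  rw [coe_normInclUnits, inclUnits_eq, Units.val_pow_eq_pow_val, ← finrank_inclAlg h]
  let _ : Algebra (FK N) (FK L) := algebraAlong (inclAlg h)
  exact Algebra.norm_algebraMap (S := FK L) (u : FK N)

/-! ### the maps on Kummer groups -/

variable (m : ℕ)

/-- **pull-back** `Kum_m(F_N) → Kum_m(F_L)` -/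
def kumIncl (h : N ∣ L) : Additive (Kum Kb (FK N) m) →ₗ[ZMod m] Additive (Kum Kb (FK L) m) :=
  kumLin₂ (inclUnits h) (fun _ hu => inclUnits_mem h m hu)

/-- **push-forward** (norm) `Kum_m(F_L) → Kum_m(F_N)` -/
def kumNorm (h : N ∣ L) : Additive (Kum Kb (FK L) m) →ₗ[ZMod m] Additive (Kum Kb (FK N) m) :=
  kumLin₂ (normInclUnits h) (normInclUnits_mem h m)

theorem kumIncl_mk (h : N ∣ L) (u : pDivUnits Kb (FK N) m) :
    kumIncl m h (Additive.ofMul (Kum.mk u)) =
      Additive.ofMul (Kum.mk ⟨inclUnits h u, inclUnits_mem h m u.2⟩) := rfl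

theorem kumNorm_mk (h : N ∣ L) (v : pDivUnits Kb (FK L) m) :
    kumNorm m h (Additive.ofMul (Kum.mk v)) =
      Additive.ofMul (Kum.mk ⟨normInclUnits h v, normInclUnits_mem h m v v.2⟩) := rfl

/-- **`ν ∘ ι = d`**: push-forward after pull-back is multiplication by the degree. -/
theorem kumNorm_kumIncl (h : N ∣ L) (x : Additive (Kum Kb (FK N) m)) :
    kumNorm m h (kumIncl m h x) =
      (relfinrank (modularFunctionFieldBar N) (modularFunctionFieldBar L)) • x := by
  obtain ⟨u, rfl⟩ := exists_rep x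
  rw [kumIncl_mk, kumNorm_mk, ← ofMul_pow, ← map_pow]
  refine congrArg (fun v => Additive.ofMul (Kum.mk v)) (Subtype.ext ?_)
  show normInclUnits h (inclUnits h (u : (FK N)ˣ)) = _
  rw [normInclUnits_inclUnits, Subgroup.coe_pow]

/-- the kernel of the pull-back is killed by the degree -/
theorem relfinrank_smul_eq_zero_of_kumIncl_eq_zero (h : N ∣ L) (x : Additive (Kum Kb (FK N) m))
    (hx : kumIncl m h x = 0) :
    (relfinrank (modularFunctionFieldBar N) (modularFunctionFieldBar L)) • x = 0 := by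
  rw [← kumNorm_kumIncl m h, hx, map_zero]

/-! ### Galois equivariance -/

/-- the pull-back commutes with the Galois action -/
theorem kumIncl_gal (h : N ∣ L) (σ : GQ) (x : Additive (Kum Kb (FK N) m)) :
    kumIncl m h (gal N m σ x) = gal L m σ (kumIncl m h x) := by
  obtain ⟨u, rfl⟩ := exists_rep x
  rw [gal_mk, kumIncl_mk, kumIncl_mk, gal_mk]
  refine congrArg (fun v => Additive.ofMul (Kum.mk v)) (Subtype.ext ?_)
  exact (galUnits_inclUnits h σ (u : (FK N)ˣ)).symm

/-- the norm commutes with the coefficientwise Galois action -/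
theorem normAlong_arithmeticRingAut (h : N ∣ L) (σ : GQ) (x : FK L) :
    normAlong (inclAlg h) (arithmeticRingAut (modularFunctionFieldFull L) σ x) =
      arithmeticRingAut (modularFunctionFieldFull N) σ (normAlong (inclAlg h) x) := by
  let _ : Algebra (FK N) (FK L) := algebraAlong (inclAlg h)
  have he : RingHom.comp (algebraMap (FK N) (FK L))
      ((arithmeticRingAut (modularFunctionFieldFull N) σ : FK N ≃+* FK N) : FK N →+* FK N) =
      RingHom.comp ((arithmeticRingAut (modularFunctionFieldFull L) σ : FK L ≃+* FK L) :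
        FK L →+* FK L) (algebraMap (FK N) (FK L)) := by
    refine RingHom.ext fun y => Subtype.ext ?_
    show ((inclAlg h (arithmeticRingAut (modularFunctionFieldFull N) σ y) : FK L) :
        LaurentSeries Kb) =
      ((arithmeticRingAut (modularFunctionFieldFull L) σ (inclAlg h y) : FK L) : LaurentSeries Kb)
    rw [coe_inclAlg, coe_arithmeticRingAut_apply, coe_arithmeticRingAut_apply, coe_inclAlg]
  have key := Algebra.norm_eq_of_equiv_equiv
    (arithmeticRingAut (modularFunctionFieldFull N) σ : FK N ≃+* FK N)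
    (arithmeticRingAut (modularFunctionFieldFull L) σ : FK L ≃+* FK L) he x
  show Algebra.norm (FK N) (arithmeticRingAut (modularFunctionFieldFull L) σ x) =
    arithmeticRingAut (modularFunctionFieldFull N) σ (Algebra.norm (FK N) x)
  rw [key, RingEquiv.apply_symm_apply]

theorem galUnits_normInclUnits (h : N ∣ L) (σ : GQ) (v : (FK L)ˣ) :
    normInclUnits h (galUnits L σ v) = galUnits N σ (normInclUnits h v) := by
  refine Units.ext ?_
  rw [coe_normInclUnits, coe_galUnits, coe_galUnits, coe_normInclUnits]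
  exact normAlong_arithmeticRingAut h σ (v : FK L)

/-- the push-forward commutes with the Galois action -/
theorem kumNorm_gal (h : N ∣ L) (σ : GQ) (y : Additive (Kum Kb (FK L) m)) :
    kumNorm m h (gal L m σ y) = gal N m σ (kumNorm m h y) := by
  obtain ⟨v, rfl⟩ := exists_rep y
  rw [gal_mk, kumNorm_mk, kumNorm_mk, gal_mk]
  refine congrArg (fun v => Additive.ofMul (Kum.mk v)) (Subtype.ext ?_)
  exact galUnits_normInclUnits h σ (v : (FK L)ˣ)

/-! ### compatibility with the transition maps -/

/-- the pull-back commutes with the transition maps `Kum_m → Kum_d` (`d ∣ m`) -/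
theorem kumIncl_trans (h : N ∣ L) {d : ℕ} (hdm : d ∣ m) (x : Additive (Kum Kb (FK N) m)) :
    kumIncl d h (Additive.ofMul (KumTower.trans hdm (Additive.toMul x))) =
      Additive.ofMul (KumTower.trans hdm (Additive.toMul (kumIncl m h x))) := by
  obtain ⟨u, rfl⟩ := exists_rep x
  rw [kumIncl_mk, toMul_ofMul, toMul_ofMul, trans_mk, trans_mk, kumIncl_mk]
  exact congrArg (fun v => Additive.ofMul (Kum.mk v)) (Subtype.ext rfl)

/-- the push-forward commutes with the transition maps `Kum_m → Kum_d` (`d ∣ m`) -/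
theorem kumNorm_trans (h : N ∣ L) {d : ℕ} (hdm : d ∣ m) (y : Additive (Kum Kb (FK L) m)) :
    kumNorm d h (Additive.ofMul (KumTower.trans hdm (Additive.toMul y))) =
      Additive.ofMul (KumTower.trans hdm (Additive.toMul (kumNorm m h y))) := by
  obtain ⟨v, rfl⟩ := exists_rep y
  rw [kumNorm_mk, toMul_ofMul, toMul_ofMul, trans_mk, trans_mk, kumNorm_mk]
  exact congrArg (fun v => Additive.ofMul (Kum.mk v)) (Subtype.ext rfl)

end Fermat.Agent.GL.Descent.KumIncl
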