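/-
GATE-L / L10-CONCRETE (helper17), brick NORM-BC (Mathlib only): **norm base change**.

For a commutative square of field extensions

      F' ──→ G'
      ↑       ↑
      F  ──→ G

with `[G' : G] = [F' : F]` finite and `G' = G · F'` (the `G`-subalgebra generated by the image of
`F'` is everything), the norm commutes with the horizontal maps:

      `Nm_{G'/G} (x) = Nm_{F'/F} (x)`   for `x ∈ F'`.

(An `F`-basis of `F'` stays a `G`-basis of `G'`, and the matrix of multiplication by `x` is the
same.)  Also in ring-hom-square form (`RingHom.toAlgebra` structures, as used by `normAlong`).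
-/
import Mathlib

set_option autoImplicit false

namespace Fermat.Agent.GL.Descent.NormBC

open Module

section Instances

variable {F F' G G' : Type*} [Field F] [Field F'] [Field G] [Field G']
  [Algebra F F'] [Algebra G G'] [Algebra F G] [Algebra F' G'] [Algebra F G']
  [IsScalarTower F F' G'] [IsScalarTower F G G']

/-- the `G`-span of the image of an `F`-basis of `F'` is everything, when `G' = G · F'` -/
theorem span_image_basis_eq_top {ι : Type*} (b : Basis ι F F')
    (hgen : Algebra.adjoin G (Set.range (algebraMap F' G')) = ⊤) :
    (⊤ : Submodule G G') ≤ Submodule.span G (Set.range fun i => algebraMap F' G' (b i)) := by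
  -- the image of `F'` lies in the span
  have himg : ∀ y : F', algebraMap F' G' y ∈
      Submodule.span G (Set.range fun i => algebraMap F' G' (b i)) := by
    intro y
    have hy : y = (b.repr y).sum fun i c => c • b i := (b.linearCombination_repr y).symm
    rw [hy, Finsupp.sum, map_sum]
    refine Submodule.sum_mem _ fun i _ => ?_
    have : algebraMap F' G' (b.repr y i • b i)
        = (algebraMap F G (b.repr y i)) • algebraMap F' G' (b i) := by
      rw [Algebra.smul_def, map_mul, ← IsScalarTower.algebraMap_apply F F' G',
        IsScalarTower.algebraMap_apply F G G', ← Algebra.smul_def]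
    rw [this]
    exact Submodule.smul_mem _ _ (Submodule.subset_span ⟨i, rfl⟩)
  -- `adjoin = span` since the image of `F'` is a submonoid
  have hcl : Submonoid.closure (Set.range (algebraMap F' G')) =
      MonoidHom.mrange ((algebraMap F' G' : F' →+* G') : F' →* G') := by
    have : Set.range (algebraMap F' G') =
        ((MonoidHom.mrange ((algebraMap F' G' : F' →+* G') : F' →* G') : Submonoid G') : Set G') := by
      ext z; simp
    rw [this, Submonoid.closure_eq]
  have hspan := Algebra.adjoin_eq_span (R := G) (Set.range (algebraMap F' G'))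
  rw [hgen, hcl] at hspan
  intro z _
  have hz : z ∈ Submodule.span G
      ((MonoidHom.mrange ((algebraMap F' G' : F' →+* G') : F' →* G') : Submonoid G') : Set G') := by
    rw [← hspan]; trivial
  refine Submodule.span_le.mpr ?_ hz
  rintro w ⟨y, rfl⟩
  exact himg y

/-- **Norm base change** (instance form). -/
theorem norm_algebraMap_of_square [FiniteDimensional F F']
    (hdeg : finrank G G' = finrank F F')
    (hgen : Algebra.adjoin G (Set.range (algebraMap F' G')) = ⊤) (x : F') :
    Algebra.norm G (algebraMap F' G' x) = algebraMap F G (Algebra.norm F x) := by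
  classical
  set n := finrank F F' with hn
  let b : Basis (Fin n) F F' := Module.finBasis F F'
  have hle := span_image_basis_eq_top (G := G) b hgen
  have hcard : Fintype.card (Fin n) = finrank G G' := by rw [Fintype.card_fin, hdeg]
  let B : Basis (Fin n) G G' :=
    basisOfTopLeSpanOfCardEqFinrank (fun i => algebraMap F' G' (b i)) hle hcard
  have hB : ∀ i, B i = algebraMap F' G' (b i) := fun i => by
    simp only [B, coe_basisOfTopLeSpanOfCardEqFinrank]
  rw [Algebra.norm_eq_matrix_det B, Algebra.norm_eq_matrix_det b, RingHom.map_det,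
    RingHom.mapMatrix_apply]
  congr 1
  ext i j
  rw [Matrix.map_apply, Algebra.leftMulMatrix_eq_repr_mul, Algebra.leftMulMatrix_eq_repr_mul]
  -- `x * b j = Σ c_i b_i`
  have hxb : x * b j = ∑ k, b.repr (x * b j) k • b k := (b.sum_repr (x * b j)).symm
  have h1 : algebraMap F' G' x * B j = ∑ k, (algebraMap F G (b.repr (x * b j) k)) • B k := by
    rw [hB j, ← map_mul]
    conv_lhs => rw [hxb]
    rw [map_sum]
    refine Finset.sum_congr rfl fun k _ => ?_
    rw [hB k, Algebra.smul_def, map_mul, ← IsScalarTower.algebraMap_apply F F' G',
      IsScalarTower.algebraMap_apply F G G', ← Algebra.smul_def]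
  rw [h1, B.repr_sum_self]

end Instances

section RingHom

variable {F F' G G' : Type*} [Field F] [Field F'] [Field G] [Field G']

/-- **Norm base change** (ring-hom-square form): for `ψ : F → F'`, `ψ' : G → G'`, `i : F → G`,
`i' : F' → G'` with `i' ∘ ψ = ψ' ∘ i`, equal finite degrees and `G' = ψ'(G) · i'(F')`:
`Nm_{ψ'} (i' x) = i (Nm_ψ x)`. -/
theorem norm_ringHom_square (ψ : F →+* F') (ψ' : G →+* G') (i : F →+* G) (i' : F' →+* G')
    (hsq : i'.comp ψ = ψ'.comp i)
    (hfin : @FiniteDimensional F F' _ _ ψ.toAlgebra.toModule)
    (hdeg : @finrank G G' _ _ ψ'.toAlgebra.toModule = @finrank F F' _ _ ψ.toAlgebra.toModule)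
    (hgen : @Algebra.adjoin G G' _ _ ψ'.toAlgebra (Set.range i') = ⊤) (x : F') :
    @Algebra.norm G G' _ _ ψ'.toAlgebra (i' x) = i (@Algebra.norm F F' _ _ ψ.toAlgebra x) := by
  let _ : Algebra F F' := ψ.toAlgebra
  let _ : Algebra G G' := ψ'.toAlgebra
  let _ : Algebra F G := i.toAlgebra
  let _ : Algebra F' G' := i'.toAlgebra
  let _ : Algebra F G' := (i'.comp ψ).toAlgebra
  have : IsScalarTower F F' G' := IsScalarTower.of_algebraMap_eq fun _ => rfl
  have : IsScalarTower F G G' := IsScalarTower.of_algebraMap_eq fun a => by
    change (i'.comp ψ) a = ψ' (i a)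
    rw [hsq]; rfl
  have : FiniteDimensional F F' := hfin
  exact norm_algebraMap_of_square (F := F) (F' := F') (G := G) (G' := G') hdeg hgen x

end RingHom

end Fermat.Agent.GL.Descent.NormBC
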