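/-
GATE-L / L10-CONCRETE (helper17), brick NORM-SQUARE: push-forward commutes with pull-back in a
"cartesian" square of levels.

Levels `N' ∣ M`, `L' ∣ L`, `M ∣ L`, `N' ∣ L'` (e.g. `M = q² M''`, `N' = M / q`, `L = M r`,
`L' = N' r`):

      F_M  ──→ F_L
       ↑        ↑
      F_N' ──→ F_L'

If `[F_L : F_L'] = [F_M : F_N']` and `F_L = F_L' · F_M`, then on Kummer groups
      `kumNorm (L' ∣ L) ∘ kumIncl (M ∣ L) = kumIncl (N' ∣ L') ∘ kumNorm (N' ∣ M)`,
i.e. `π_*^{L} ∘ ι = ι' ∘ π_*^{M}` for the degeneracy `π = α` — the hypothesis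
`f_i^L ∘ ι = ι' ∘ f_i^M` of helper24's abstract aux-level descent.

`adjoin_eq_top_of_coprime` : the generation hypothesis holds as soon as the degrees
`[F_M : F_N']` and `[F_L' : F_N']` are coprime and `[F_L : F_N'] = [F_M : F_N'] · [F_L' : F_N']`.
-/
import Mathlib
import Fermat.Agent.GL.Descent.NormBC
import Fermat.Agent.GL.Descent.KumIncl
import Fermat.Agent.GK.UQ.Degree

set_option autoImplicit false

noncomputable section

open AlgebraicCurve ModularCurve IntermediateField

namespace Fermat.Agent.GL.Descent.NormSquare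

open Fermat.Agent.GJ.KumGroup Fermat.Agent.GJ.Kum.KumType Fermat.Agent.GJ.J1.Desc
open Fermat.Agent.GJ Fermat.Agent.GJ.HInputs
open Fermat.Agent.GK.Tate Fermat.Agent.S24 Fermat.Agent.GK.SS.AuxDescent
open Fermat.Agent.GK.UTr Fermat.Agent.GL.Descent.KumIncl

variable {N' M L' L : ℕ} [NeZero N'] [NeZero M] [NeZero L'] [NeZero L]

/-- **norm base change in the square of levels** (on functions) -/
theorem normAlong_inclAlg_square (hN'M : N' ∣ M) (hL'L : L' ∣ L) (hML : M ∣ L) (hN'L' : N' ∣ L')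
    (hdeg : relfinrank (modularFunctionFieldBar L') (modularFunctionFieldBar L) =
      relfinrank (modularFunctionFieldBar N') (modularFunctionFieldBar M))
    (hgen : @Algebra.adjoin (FK L') (FK L) _ _ (algebraAlong (inclAlg hL'L))
      (Set.range (inclAlg hML)) = ⊤) (x : FK M) :
    normAlong (inclAlg hL'L) (inclAlg hML x) = inclAlg hN'L' (normAlong (inclAlg hN'M) x) := by
  have hsq : ((inclAlg hML).toRingHom).comp (inclAlg hN'M).toRingHom =
      ((inclAlg hL'L).toRingHom).comp (inclAlg hN'L').toRingHom := by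
    refine RingHom.ext fun y => Subtype.ext ?_
    show ((inclAlg hML (inclAlg hN'M y) : FK L) : LaurentSeries Kb) =
      ((inclAlg hL'L (inclAlg hN'L' y) : FK L) : LaurentSeries Kb)
    rw [coe_inclAlg, coe_inclAlg, coe_inclAlg, coe_inclAlg]
  exact NormBC.norm_ringHom_square (inclAlg hN'M).toRingHom (inclAlg hL'L).toRingHom
    (inclAlg hN'L').toRingHom (inclAlg hML).toRingHom hsq (finiteAlong_inclAlg hN'M)
    (by
      have h1 := finrank_inclAlg hL'L
      have h2 := finrank_inclAlg hN'M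
      exact h1.trans (hdeg.trans h2.symm))
    hgen x

variable (m : ℕ)

/-- **`π_* ∘ ι = ι' ∘ π_*`** on Kummer groups. -/
theorem kumNorm_kumIncl_square (hN'M : N' ∣ M) (hL'L : L' ∣ L) (hML : M ∣ L) (hN'L' : N' ∣ L')
    (hdeg : relfinrank (modularFunctionFieldBar L') (modularFunctionFieldBar L) =
      relfinrank (modularFunctionFieldBar N') (modularFunctionFieldBar M))
    (hgen : @Algebra.adjoin (FK L') (FK L) _ _ (algebraAlong (inclAlg hL'L))
      (Set.range (inclAlg hML)) = ⊤) (x : Additive (Kum Kb (FK M) m)) :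
    kumNorm m hL'L (kumIncl m hML x) = kumIncl m hN'L' (kumNorm m hN'M x) := by
  obtain ⟨u, rfl⟩ := exists_rep x
  rw [kumIncl_mk, kumNorm_mk, kumNorm_mk, kumIncl_mk]
  refine congrArg (fun v => Additive.ofMul (Kum.mk v)) (Subtype.ext (Units.ext ?_))
  show normAlong (inclAlg hL'L) ((inclUnits hML (u : (FK M)ˣ) : (FK L)ˣ) : FK L) =
    ((inclUnits hN'L' (normInclUnits hN'M (u : (FK M)ˣ)) : (FK L')ˣ) : FK L')
  rw [inclUnits_eq, inclUnits_eq, coe_normInclUnits]
  exact normAlong_inclAlg_square hN'M hL'L hML hN'L' hdeg hgen _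

/-! ### the generation hypothesis -/

/-- `F_M ⊔ F_L' = F_L` when the degrees `[F_M : F_N']`, `[F_L' : F_N']` are coprime with product
`[F_L : F_N']`. -/
theorem sup_eq_of_coprime (hN'M : N' ∣ M) (hL'L : L' ∣ L) (hML : M ∣ L) (hN'L' : N' ∣ L')
    (hcop : (relfinrank (modularFunctionFieldBar N') (modularFunctionFieldBar M)).Coprime
      (relfinrank (modularFunctionFieldBar N') (modularFunctionFieldBar L')))
    (hmul : relfinrank (modularFunctionFieldBar N') (modularFunctionFieldBar L) =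
      relfinrank (modularFunctionFieldBar N') (modularFunctionFieldBar M) *
        relfinrank (modularFunctionFieldBar N') (modularFunctionFieldBar L')) :
    modularFunctionFieldBar M ⊔ modularFunctionFieldBar L' = modularFunctionFieldBar L := by
  set E₀ := modularFunctionFieldBar N' with hE₀
  set A := modularFunctionFieldBar M with hA
  set B := modularFunctionFieldBar L' with hB
  set T := modularFunctionFieldBar L with hT
  have h0A : E₀ ≤ A := fk_le hN'M
  have h0B : E₀ ≤ B := fk_le hN'L'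
  have hAT : A ≤ T := fk_le hML
  have hBT : B ≤ T := fk_le hL'L
  have hCT : A ⊔ B ≤ T := sup_le hAT hBT
  have hAC : A ≤ A ⊔ B := le_sup_left
  have hBC : B ≤ A ⊔ B := le_sup_right
  have e1 := relfinrank_mul_relfinrank h0A hAC
  have e2 := relfinrank_mul_relfinrank h0B hBC
  have e3 := relfinrank_mul_relfinrank (h0A.trans hAC) hCT
  have hd1 : relfinrank E₀ A ∣ relfinrank E₀ (A ⊔ B) := ⟨_, e1.symm⟩
  have hd2 : relfinrank E₀ B ∣ relfinrank E₀ (A ⊔ B) := ⟨_, e2.symm⟩
  obtain ⟨j, hj⟩ := hcop.mul_dvd_of_dvd_of_dvd hd1 hd2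
  have hpos : 0 < relfinrank E₀ T := relfinrank_pos (hN'M.trans hML)
  rw [hmul] at hpos
  rw [hmul, hj, mul_assoc] at e3
  have hjk : j * relfinrank (A ⊔ B) T = 1 := by
    have := Nat.eq_of_mul_eq_mul_left hpos (e3.trans (mul_one _).symm)
    exact this
  have hk : relfinrank (A ⊔ B) T = 1 := Nat.eq_one_of_mul_eq_one_left hjk
  exact le_antisymm hCT (relfinrank_eq_one_iff.mp hk)

/-- the generation hypothesis of `kumNorm_kumIncl_square` from `F_M ⊔ F_L' = F_L` -/
theorem adjoin_eq_top_of_sup (hL'L : L' ∣ L) (hML : M ∣ L)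
    (hsup : modularFunctionFieldBar M ⊔ modularFunctionFieldBar L' = modularFunctionFieldBar L) :
    @Algebra.adjoin (FK L') (FK L) _ _ (algebraAlong (inclAlg hL'L))
      (Set.range (inclAlg hML)) = ⊤ := by
  let _ : Algebra (FK L') (FK L) := algebraAlong (inclAlg hL'L)
  have hfin : Module.Finite (FK L') (FK L) := finiteAlong_inclAlg hL'L
  have halg : Algebra.IsAlgebraic (FK L') (FK L) := Algebra.IsAlgebraic.of_finite _ _
  set S : Subalgebra (FK L') (FK L) := Algebra.adjoin (FK L') (Set.range (inclAlg hML)) with hS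
  have hle : modularFunctionFieldBar M ⊔ modularFunctionFieldBar L' ≤ modularFunctionFieldBar L :=
    hsup.le
  have key : ∀ x (_ : x ∈ IntermediateField.adjoin Kb
      ((modularFunctionFieldBar M : Set (LaurentSeries Kb)) ∪ modularFunctionFieldBar L')),
      ∀ hT : x ∈ modularFunctionFieldBar L, (⟨x, hT⟩ : FK L) ∈ S := by
    intro x hx
    refine IntermediateField.adjoin_induction Kb
      (p := fun x _ => ∀ hT : x ∈ modularFunctionFieldBar L, (⟨x, hT⟩ : FK L) ∈ S)
      ?_ ?_ ?_ ?_ ?_ hx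
    · intro y hy hT
      rcases hy with hy | hy
      · exact Algebra.subset_adjoin ⟨⟨y, hy⟩, Subtype.ext (coe_inclAlg hML ⟨y, hy⟩)⟩
      · have : (⟨y, hT⟩ : FK L) = algebraMap (FK L') (FK L) ⟨y, hy⟩ :=
          Subtype.ext (coe_inclAlg hL'L ⟨y, hy⟩).symm
        rw [this]
        exact S.algebraMap_mem _
    · intro c hT
      have : (⟨algebraMap Kb (LaurentSeries Kb) c, hT⟩ : FK L) =
          algebraMap (FK L') (FK L) (algebraMap Kb (FK L') c) :=
        Subtype.ext (coe_inclAlg hL'L (algebraMap Kb (FK L') c)).symm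
      rw [this]
      exact S.algebraMap_mem _
    · intro y z hy hz ihy ihz hT
      have hyT : y ∈ modularFunctionFieldBar L := hle (by rw [IntermediateField.sup_def]; exact hy)
      have hzT : z ∈ modularFunctionFieldBar L := hle (by rw [IntermediateField.sup_def]; exact hz)
      have : (⟨y + z, hT⟩ : FK L) = ⟨y, hyT⟩ + ⟨z, hzT⟩ := rfl
      rw [this]
      exact S.add_mem (ihy hyT) (ihz hzT)
    · intro y hy ihy hT
      have hyT : y ∈ modularFunctionFieldBar L := hle (by rw [IntermediateField.sup_def]; exact hy)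
      have : (⟨y⁻¹, hT⟩ : FK L) = (⟨y, hyT⟩ : FK L)⁻¹ := rfl
      rw [this]
      exact Subalgebra.inv_mem_of_algebraic (A := S) (x := ⟨_, ihy hyT⟩) (halg.isAlgebraic _)
    · intro y z hy hz ihy ihz hT
      have hyT : y ∈ modularFunctionFieldBar L := hle (by rw [IntermediateField.sup_def]; exact hy)
      have hzT : z ∈ modularFunctionFieldBar L := hle (by rw [IntermediateField.sup_def]; exact hz)
      have : (⟨y * z, hT⟩ : FK L) = ⟨y, hyT⟩ * ⟨z, hzT⟩ := rfl
      rw [this]
      exact S.mul_mem (ihy hyT) (ihz hzT)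
  rw [eq_top_iff]
  intro t _
  have ht : (t : LaurentSeries Kb) ∈ IntermediateField.adjoin Kb
      ((modularFunctionFieldBar M : Set (LaurentSeries Kb)) ∪ modularFunctionFieldBar L') := by
    rw [← IntermediateField.sup_def, hsup]; exact t.2
  exact key _ ht t.2

/-- **`π_* ∘ ι = ι' ∘ π_*` under the coprime-degree criterion.** -/
theorem kumNorm_kumIncl_square_of_coprime (hN'M : N' ∣ M) (hL'L : L' ∣ L) (hML : M ∣ L)
    (hN'L' : N' ∣ L')
    (hcop : (relfinrank (modularFunctionFieldBar N') (modularFunctionFieldBar M)).Coprime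
      (relfinrank (modularFunctionFieldBar N') (modularFunctionFieldBar L')))
    (hmul : relfinrank (modularFunctionFieldBar N') (modularFunctionFieldBar L) =
      relfinrank (modularFunctionFieldBar N') (modularFunctionFieldBar M) *
        relfinrank (modularFunctionFieldBar N') (modularFunctionFieldBar L'))
    (x : Additive (Kum Kb (FK M) m)) :
    kumNorm m hL'L (kumIncl m hML x) = kumIncl m hN'L' (kumNorm m hN'M x) := by
  have hdeg : relfinrank (modularFunctionFieldBar L') (modularFunctionFieldBar L) =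
      relfinrank (modularFunctionFieldBar N') (modularFunctionFieldBar M) := by
    have e := relfinrank_mul_relfinrank (fk_le hN'L') (fk_le hL'L)
    rw [hmul] at e
    have hpos : 0 < relfinrank (modularFunctionFieldBar N') (modularFunctionFieldBar L') :=
      relfinrank_pos hN'L'
    exact Nat.eq_of_mul_eq_mul_left hpos (e.trans (mul_comm _ _))
  exact kumNorm_kumIncl_square m hN'M hL'L hML hN'L' hdeg
    (adjoin_eq_top_of_sup hL'L hML (sup_eq_of_coprime hN'M hL'L hML hN'L' hcop hmul)) x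

/-! ### the auxiliary-prime square `L = M r`, `L' = N' r` -/

/-- `[F_{N r} : F_N] = r + 1` for a prime `r ∤ N` -/
theorem relfinrank_mul_prime {N r : ℕ} [NeZero N] [NeZero r] (hr : r.Prime) (hrN : ¬ r ∣ N) :
    relfinrank (modularFunctionFieldBar N) (modularFunctionFieldBar (N * r)) = r + 1 := by
  have h1 := Fermat.Agent.GJ.J1.Desc.dedekindPsi_mul_relfinrank (N := N) (N' := N * r)
    (Dvd.intro r rfl)
  have hcop : Nat.Coprime N r := ((Nat.Prime.coprime_iff_not_dvd hr).mpr hrN).symm
  have e3 : dedekindPsi (N * r) = dedekindPsi N * (r + 1) := by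
    rw [Fermat.Agent.S20_helper27.dedekindPsi_mul hcop]
    have := Fermat.Agent.S20_helper27.dedekindPsi_prime_pow hr (k := 1) one_pos
    simp only [pow_one, Nat.sub_self, pow_zero] at this
    rw [this]
  rw [e3] at h1
  exact Nat.eq_of_mul_eq_mul_left (Fermat.Agent.GJ.J1.Desc.dedekindPsi_pos N) h1

/-- `[F_{N q} : F_N] = q` for a prime `q ∣ N` -/
theorem relfinrank_mul_prime_of_dvd {N q : ℕ} [NeZero N] [NeZero q] (hq : q.Prime) (hqN : q ∣ N) :
    relfinrank (modularFunctionFieldBar N) (modularFunctionFieldBar (N * q)) = q := by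
  have h1 := Fermat.Agent.GJ.J1.Desc.dedekindPsi_mul_relfinrank (N := N) (N' := N * q)
    (Dvd.intro q rfl)
  rw [Fermat.Agent.GK.UQ.dedekindPsi_mul_prime_of_dvd (NeZero.ne N) hq hqN] at h1
  exact Nat.eq_of_mul_eq_mul_left (Fermat.Agent.GJ.J1.Desc.dedekindPsi_pos N) h1

/-- **the auxiliary-prime square**: for `N' ∣ M`, a prime `r ∤ M` with `r + 1` prime to
`[F_M : F_N']`:  `π_*^{M r} ∘ ι = ι' ∘ π_*^{M}` where `π_*` is the norm to the level `N' r`
resp. `N'`, and `ι`, `ι'` are the pull-backs to the levels `M r`, `N' r`. -/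
theorem kumNorm_kumIncl_aux {r : ℕ} [NeZero r] (hr : r.Prime) (hN'M : N' ∣ M) (hrM : ¬ r ∣ M)
    (hcop : (relfinrank (modularFunctionFieldBar N') (modularFunctionFieldBar M)).Coprime (r + 1))
    (x : Additive (Kum Kb (FK M) m)) :
    kumNorm m (Nat.mul_dvd_mul_right hN'M r) (kumIncl m (Dvd.intro r rfl : M ∣ M * r) x) =
      kumIncl m (Dvd.intro r rfl : N' ∣ N' * r) (kumNorm m hN'M x) := by
  have hrN' : ¬ r ∣ N' := fun h => hrM (h.trans hN'M)
  have e1 := relfinrank_mul_prime (N := N') hr hrN'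
  have e2 := relfinrank_mul_prime (N := M) hr hrM
  refine kumNorm_kumIncl_square_of_coprime m hN'M (Nat.mul_dvd_mul_right hN'M r)
    (Dvd.intro r rfl) (Dvd.intro r rfl) ?_ ?_ x
  · rw [e1]; exact hcop
  · have e := relfinrank_mul_relfinrank (fk_le hN'M) (fk_le (Dvd.intro r rfl : M ∣ M * r))
    rw [← e, e1, e2]

/-- **the S36 shape**: `M = N' q` with `q ∣ N'` (so `q² ∣ M`), aux prime `r ∤ M` with
`q ∤ r + 1`. -/
theorem kumNorm_kumIncl_aux_sq {q r : ℕ} [NeZero q] [NeZero r] (hq : q.Prime) (hr : r.Prime)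
    (hqN' : q ∣ N') (hrM : ¬ r ∣ N' * q) (hqr : ¬ q ∣ r + 1)
    (x : Additive (Kum Kb (FK (N' * q)) m)) :
    kumNorm m (Nat.mul_dvd_mul_right (Dvd.intro q rfl : N' ∣ N' * q) r)
        (kumIncl m (Dvd.intro r rfl : N' * q ∣ N' * q * r) x) =
      kumIncl m (Dvd.intro r rfl : N' ∣ N' * r) (kumNorm m (Dvd.intro q rfl : N' ∣ N' * q) x) := by
  refine kumNorm_kumIncl_aux m hr (Dvd.intro q rfl) hrM ?_ x
  rw [relfinrank_mul_prime_of_dvd hq hqN']
  exact (Nat.Prime.coprime_iff_not_dvd hq).mpr hqr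

end Fermat.Agent.GL.Descent.NormSquare
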