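/-
GATE-L / L10 FINAL PLUG (helper17): the Hecke-free geometric gate `GeomInv` (helper24) at the frozen
level `M = N' q` from the CANONICAL geometric statement at an auxiliary level `(N' r) q`.

* `GeomKill L' q m P C` : the canonical output of the geometry stack at the level `L' q`:
  every class `y ∈ Kum_m(F_{L' q})` fixed by the inertia group `I(P)` with `α_* y = 0 = β_* y`
  (helper82's `aLow`, `betaLow` to the level `L'`) is killed by `C`.
* `geomInv_of_geomKill` : `GeomKill N' q m P C → GeomInv (N' q) N' m P C` (no aux level).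
* `geomInv_of_aux` : `GeomKill (N' r) q m P C` + the two squares
      `α_*^{N' r} ∘ ι = ι' ∘ α_*^{N'}`,  `β_*^{N' r} ∘ ι = ι' ∘ β_*^{N'}`
  (`ι : Kum(F_{N' q}) → Kum(F_{N' r q})`, `ι' : Kum(F_{N'}) → Kum(F_{N' r})` the pull-backs
  `KumIncl.kumIncl`)  ⟹  `GeomInv (N' q) N' m P (d * C)`, `d = [F_{N' r q} : F_{N' q}] ≠ 0`.
* `aLow_kumIncl_of_coprime` : the `α`-square under the degree criterion `q ∣ N'`, `q ∤ r + 1`
  (`NormSquare`); the general case and the `β`-square are helper12's `NormBCModular`.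
-/
import Mathlib
import Fermat.Agent.GL.Hecke.InvGateOfGeom
import Fermat.Agent.GL.Descent.NormSquare
import Fermat.Agent.GK.UTr.KumAlphaGal
import Fermat.Agent.GK.UTr.KumBeta
import Fermat.Agent.GL.Final.S36OfGeom

set_option autoImplicit false

noncomputable section

open AlgebraicCurve ModularCurve IntermediateField

namespace Fermat.Agent.GL.Descent.GeomInvAux

open Fermat.Agent.GJ.KumGroup Fermat.Agent.GJ.Kum.KumType Fermat.Agent.GJ.J1.Desc
open Fermat.Agent.GJ Fermat.Agent.GJ.HN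
open Fermat.Agent.GK.Tate Fermat.Agent.S24 Fermat.Agent.GK.SS.AuxDescent
open Fermat.Agent.GK.UTr Fermat.Agent.GL.Descent.KumIncl Fermat.Agent.GL.Descent.NormSquare
open Fermat.Agent.GL.Hecke

local notation "GQ" => (AlgebraicClosure ℚ ≃ₐ[ℚ] AlgebraicClosure ℚ)

/-- **the canonical geometric statement at the level `L' q`** -/
def GeomKill (L' q : ℕ) [NeZero L'] [NeZero q] (m : ℕ)
    (P : ValuationSubring (AlgebraicClosure ℚ)) (C : ℕ) : Prop :=
  ∀ y : Additive (Kum Kb (FK (L' * q)) m),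
    (∀ σ ∈ P.inertiaSubgroupIn ℚ, gal (L' * q) m σ y = y) →
      aLow L' q m y = 0 → betaLow L' q m y = 0 → C • y = 0

variable {N' q : ℕ} [NeZero N'] [NeZero q] {m : ℕ}
  {P : ValuationSubring (AlgebraicClosure ℚ)} {C : ℕ}

/-- no aux level: the canonical statement is a `GeomInv` -/
theorem geomInv_of_geomKill (h : GeomKill N' q m P C) : GeomInv (N' * q) N' m P C :=
  ⟨aLow N' q m, betaLow N' q m, fun σ x => aLow_gal N' q m σ x,
    fun σ x => betaLow_gal N' q m σ x, h⟩

/-- the pull-back `Kum(F_{N'}) → Kum(F_{N' r})` is `α^*` -/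
theorem inclAlg_eq_alphaB (N r : ℕ) [NeZero N] [NeZero r] :
    inclAlg (Dvd.intro r rfl : N ∣ N * r) = alphaB N r := rfl

/-- the push-forward `Kum(F_{N q}) → Kum(F_N)` along the inclusion is `α_*` -/
theorem kumNorm_eq_aLow (N q : ℕ) [NeZero N] [NeZero q] (m : ℕ) :
    kumNorm m (Dvd.intro q rfl : N ∣ N * q) = aLow N q m := rfl

section Aux

variable {r : ℕ} [NeZero r]

/-- `N' q ∣ N' r q` -/
theorem dvd_aux (N' q r : ℕ) : N' * q ∣ N' * r * q := ⟨r, by ring⟩

/-- **L10 final plug**: the geometric gate at the level `N' q` from the canonical statement at the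
auxiliary level `(N' r) q` and the two base-change squares. -/
theorem geomInv_of_aux
    (hα : ∀ x : Additive (Kum Kb (FK (N' * q)) m),
      aLow (N' * r) q m (kumIncl m (dvd_aux N' q r) x) =
        kumIncl m (Dvd.intro r rfl : N' ∣ N' * r) (aLow N' q m x))
    (hβ : ∀ x : Additive (Kum Kb (FK (N' * q)) m),
      betaLow (N' * r) q m (kumIncl m (dvd_aux N' q r) x) =
        kumIncl m (Dvd.intro r rfl : N' ∣ N' * r) (betaLow N' q m x))
    (hL : GeomKill (N' * r) q m P C) :
    GeomInv (N' * q) N' m P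
      (relfinrank (modularFunctionFieldBar (N' * q)) (modularFunctionFieldBar (N' * r * q)) * C) :=
  GeomInv.descent (L := N' * r * q) (L' := N' * r) _
    (kumIncl m (dvd_aux N' q r)) (fun σ x => kumIncl_gal m _ σ x)
    (kumNorm m (dvd_aux N' q r)) (fun x => kumNorm_kumIncl m _ x)
    (aLow N' q m) (betaLow N' q m) (fun σ x => aLow_gal N' q m σ x)
    (fun σ x => betaLow_gal N' q m σ x)
    (kumIncl m (Dvd.intro r rfl : N' ∣ N' * r))
    ⟨aLow (N' * r) q m, betaLow (N' * r) q m, hα, hβ, hL⟩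

/-- the constant of `geomInv_of_aux` is nonzero -/
theorem relfinrank_aux_ne_zero :
    relfinrank (modularFunctionFieldBar (N' * q)) (modularFunctionFieldBar (N' * r * q)) ≠ 0 :=
  (relfinrank_pos (dvd_aux N' q r)).ne'

/-- **the `α`-square** under the degree criterion: `q ∣ N'` prime, `r ∤ N' q` prime,
`q ∤ r + 1`. -/
theorem aLow_kumIncl_of_coprime (hq : q.Prime) (hr : r.Prime) (hqN' : q ∣ N')
    (hrM : ¬ r ∣ N' * q) (hqr : ¬ q ∣ r + 1) (x : Additive (Kum Kb (FK (N' * q)) m)) :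
    aLow (N' * r) q m (kumIncl m (dvd_aux N' q r) x) =
      kumIncl m (Dvd.intro r rfl : N' ∣ N' * r) (aLow N' q m x) := by
  rw [← kumNorm_eq_aLow, ← kumNorm_eq_aLow]
  have hrN' : ¬ r ∣ N' := fun h => hrM (h.trans (Dvd.intro q rfl))
  have e1 : relfinrank (modularFunctionFieldBar N') (modularFunctionFieldBar (N' * q)) = q :=
    relfinrank_mul_prime_of_dvd hq hqN'
  have e2 : relfinrank (modularFunctionFieldBar N') (modularFunctionFieldBar (N' * r)) = r + 1 :=
    relfinrank_mul_prime hr hrN'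
  have e3 : relfinrank (modularFunctionFieldBar (N' * r))
      (modularFunctionFieldBar (N' * r * q)) = q :=
    relfinrank_mul_prime_of_dvd hq (hqN'.trans (Dvd.intro r rfl))
  refine kumNorm_kumIncl_square_of_coprime m (Dvd.intro q rfl) (Dvd.intro q rfl)
    (dvd_aux N' q r) (Dvd.intro r rfl) ?_ ?_ x
  · rw [e1, e2]
    exact (Nat.Prime.coprime_iff_not_dvd hq).mpr hqr
  · have e := relfinrank_mul_relfinrank (fk_le (Dvd.intro r rfl : N' ∣ N' * r))
      (fk_le (Dvd.intro q rfl : N' * r ∣ N' * r * q))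
    rw [← e, e1, e2, e3, mul_comm]

end Aux

/-! ### the contract `S36GeomGate` in the form `M = N' q` -/

/-- **`S36GeomGate` from the `N' q`-form**: it suffices to produce, for every `N'` exactly divisible
by the prime `q ≠ lam` (so `q² ∥ N' q`), ONE place `P | q` and ONE constant `C ≠ 0` with
`GeomInv (N' q) N' (lam ^ k) P C` for all `k` — e.g. by `geomInv_of_geomKill` or
`geomInv_of_aux`. -/
theorem s36GeomGate_of_forall
    (h : ∀ (N' : ℕ) [NeZero N'] (lam : ℕ) [Fact lam.Prime] (q : ℕ) [NeZero q], q.Prime → q ≠ lam →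
      lam ≠ 2 → q ∣ N' → ¬ q ^ 2 ∣ N' →
        ∃ P : ValuationSubring (AlgebraicClosure ℚ), P.LiesOverPrime q ∧
          ∃ C : ℕ, C ≠ 0 ∧ ∀ k : ℕ, GeomInv (N' * q) N' (lam ^ k) P C) :
    Fermat.Agent.GL.Final.S36GeomGate := by
  intro M hM lam _ q hq hqlam hlam2 hfac
  have hM0 : M ≠ 0 := NeZero.ne M
  have hqM : q ∣ M := by
    by_contra hcon
    rw [Nat.factorization_eq_zero_of_not_dvd hcon] at hfac
    exact absurd hfac (by norm_num)
  obtain ⟨N', rfl⟩ : ∃ N', M = N' * q := ⟨M / q, (Nat.div_mul_cancel hqM).symm⟩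
  have hN'0 : N' ≠ 0 := fun h0 => hM0 (by rw [h0, zero_mul])
  have : NeZero N' := ⟨hN'0⟩
  have : NeZero q := ⟨hq.ne_zero⟩
  have hfac' : N'.factorization q = 1 := by
    have := Nat.factorization_mul hN'0 hq.ne_zero
    rw [this, Finsupp.add_apply, hq.factorization_self] at hfac
    omega
  have hqN' : q ∣ N' := by
    by_contra hcon
    rw [Nat.factorization_eq_zero_of_not_dvd hcon] at hfac'
    exact absurd hfac' (by norm_num)
  have hq2N' : ¬ q ^ 2 ∣ N' := by
    intro hcon
    have := (hq.pow_dvd_iff_le_factorization hN'0).mp hcon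
    omega
  obtain ⟨P, hP, C, hC, hgeom⟩ := h N' lam q hq hqlam hlam2 hqN' hq2N'
  refine ⟨N', inferInstance, Dvd.intro q rfl, ?_, P, hP, C, hC, hgeom⟩
  intro heq
  have h2 : N' * 1 = N' * q := by rw [mul_one]; exact heq
  have := Nat.eq_of_mul_eq_mul_left (Nat.pos_of_ne_zero hN'0) h2
  exact hq.one_lt.ne this

/-- **`S36GeomGate` from the canonical geometric statement at auxiliary levels**: for every
`N'` exactly divisible by `q ≠ lam`, SOME auxiliary factor `r` (e.g. a prime `≡ 11 mod 12`), the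
two base-change squares for the pull-backs to the level `N' r q`, ONE place `P | q` and ONE constant
`C ≠ 0` with `GeomKill (N' r) q (lam ^ k) P C` for all `k`. -/
theorem s36GeomGate_of_geomKill_aux
    (h : ∀ (N' : ℕ) [NeZero N'] (lam : ℕ) [Fact lam.Prime] (q : ℕ) [NeZero q], q.Prime → q ≠ lam →
      lam ≠ 2 → q ∣ N' → ¬ q ^ 2 ∣ N' →
        ∃ (r : ℕ) (_ : NeZero r),
          (∀ (k : ℕ) (x : Additive (Kum Kb (FK (N' * q)) (lam ^ k))),
            aLow (N' * r) q (lam ^ k) (kumIncl (lam ^ k) (dvd_aux N' q r) x) =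
              kumIncl (lam ^ k) (Dvd.intro r rfl : N' ∣ N' * r) (aLow N' q (lam ^ k) x)) ∧
          (∀ (k : ℕ) (x : Additive (Kum Kb (FK (N' * q)) (lam ^ k))),
            betaLow (N' * r) q (lam ^ k) (kumIncl (lam ^ k) (dvd_aux N' q r) x) =
              kumIncl (lam ^ k) (Dvd.intro r rfl : N' ∣ N' * r) (betaLow N' q (lam ^ k) x)) ∧
          ∃ P : ValuationSubring (AlgebraicClosure ℚ), P.LiesOverPrime q ∧
            ∃ C : ℕ, C ≠ 0 ∧ ∀ k : ℕ, GeomKill (N' * r) q (lam ^ k) P C) :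
    Fermat.Agent.GL.Final.S36GeomGate := by
  refine s36GeomGate_of_forall fun N' _ lam _ q _ hq hqlam hlam2 hqN' hq2N' => ?_
  obtain ⟨r, hr, hα, hβ, P, hP, C, hC, hgeom⟩ := h N' lam q hq hqlam hlam2 hqN' hq2N'
  exact ⟨P, hP, _, Nat.mul_ne_zero (relfinrank_aux_ne_zero (N' := N') (q := q) (r := r)) hC,
    fun k => geomInv_of_aux (hα k) (hβ k) (hgeom k)⟩

end Fermat.Agent.GL.Descent.GeomInvAux
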