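/-
GATE-L / L10-HGEN-ALL-q (helper62): the generation hypothesis of helper17's norm square
WITHOUT the degree-coprimality condition `q ∤ r + 1`.

Levels `L = L' * q` (`q` prime, `q ∣ L'`), `M ∣ L` with `q ∤ L / M` (i.e. `M` carries the full
`q`-power of `L`).  Then `F_M ⊔ F_{L'} = F_L` inside `ℚ̄((t))`.

Proof.  `[F_L : F_{L'}] = q` is prime, so the compositum is `F_{L'}` or `F_L`.  If it were `F_{L'}`
then `j(t^M) ∈ F_{L'} = ℚ̄(j(t^d) : d ∣ L')`; applying the Fricke involution `w_L`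
(`j(t^d) ↦ j(t^{L/d})`, helper86 `frickeEnd`) gives `j(t^{L/M}) ∈ ℚ̄(j(t^{q e}) : e ∣ L')`, which
is contained in the range of the substitution `t ↦ t^q` on `ℚ̄((t))` (a subfield).  But the
coefficient of `t^{-(L/M)}` in `j(t^{L/M})` is `1` and `q ∤ L / M`.

Consequence: helper17's `kumNorm_kumIncl_aux_sq` holds for EVERY prime `r ∤ N' q`
(`sq_all` below), in particular for `q ∈ {2, 3}` and `r ≡ 11 mod 12`.
-/
import Mathlib
import Fermat.Agent.GL.Descent.NormSquare
import Fermat.Agent.GK.UQ.Fricke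
import Fermat.Agent.S24.Degree

set_option autoImplicit false

noncomputable section

open AlgebraicCurve ModularCurve IntermediateField

namespace Fermat.Agent.GL.Descent.SupAll

open Fermat.Agent.GJ.KumGroup Fermat.Agent.GJ.Kum.KumType Fermat.Agent.GJ.J1.Desc
open Fermat.Agent.GJ Fermat.Agent.GJ.HInputs Fermat.Agent.GJ.HN
open Fermat.Agent.GK.Tate Fermat.Agent.S24 Fermat.Agent.GK.SS.AuxDescent
open Fermat.Agent.GK.UTr Fermat.Agent.GK.UQ Fermat.Agent.GL.Descent.KumIncl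
open Fermat.Agent.GL.Descent.NormSquare Fermat.Agent.S24.Degree

/-! ### the range of `t ↦ t^q` -/

/-- coefficients of an element of the range of `t ↦ t^q` vanish off the multiples of `q` -/
theorem coeff_eq_zero_of_mem_fieldRange {q : ℕ} [NeZero q] {x : LaurentSeries Kbar}
    (hx : x ∈ (qExpand Kbar q).fieldRange) {k : ℤ} (hk : ¬ (q : ℤ) ∣ k) : x.coeff k = 0 := by
  obtain ⟨y, rfl⟩ := hx
  exact qExpand_coeff_of_not_dvd q y hk

/-- `j(t^{q e}) = (j(t^e))(t^q)` -/
theorem jdSeries_mul (q e : ℕ) [NeZero q] [NeZero e] :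
    haveI : NeZero (q * e) := ⟨Nat.mul_ne_zero (NeZero.ne q) (NeZero.ne e)⟩
    jdSeries (q * e) = qExpand Kbar q (jdSeries e) := by
  haveI : NeZero (q * e) := ⟨Nat.mul_ne_zero (NeZero.ne q) (NeZero.ne e)⟩
  rw [jdSeries_eq, jdSeries_eq, qExpand_qExpand]

theorem jdSeries_congr {d d' : ℕ} (i : NeZero d) (i' : NeZero d') (h : d = d') :
    @jdSeries d i = @jdSeries d' i' := by
  subst h
  rfl

/-- the coefficient of `t^{-d}` in `j(t^d)` is `1` -/
theorem coeff_jdSeries_neg (d : ℕ) [NeZero d] : (jdSeries d).coeff (-(d : ℤ)) = 1 := by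
  have h : (-(d : ℤ)) = (d : ℤ) * (-1) := by ring
  rw [jdSeries, coeffEmb, coeffMap_coeff, h, qExpand_coeff_mul, coeff_jq_neg_one, map_one]

theorem jdSeries_not_mem_fieldRange {q d : ℕ} [NeZero q] [NeZero d] (hqd : ¬ q ∣ d) :
    jdSeries d ∉ (qExpand Kbar q).fieldRange := by
  intro h
  have h0 := coeff_eq_zero_of_mem_fieldRange h (k := -(d : ℤ))
    (by rw [Int.dvd_neg]; exact_mod_cast hqd)
  rw [coeff_jdSeries_neg] at h0
  exact one_ne_zero h0

/-! ### the Fricke involution of `F_L` on the subfield `F_{L'}`, `L = L' * q` -/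

section Fricke

variable {L' L q : ℕ} [NeZero L'] [NeZero L] [NeZero q]

/-- the Fricke involution of `F_L` maps `F_{L'}` into the range of `t ↦ t^q` (`L = L' * q`) -/
theorem coe_frickeEnd_mem_fieldRange (hL : L = L' * q) {x : LaurentSeries Kbar}
    (hx : x ∈ modularFunctionFieldBar L') (hxL : x ∈ modularFunctionFieldBar L) :
    ((frickeEnd L ⟨x, hxL⟩ : FN L) : LaurentSeries Kbar) ∈ (qExpand Kbar q).fieldRange := by
  have hL'L : L' ∣ L := ⟨q, hL⟩
  have hle : modularFunctionFieldBar L' ≤ modularFunctionFieldBar L := fk_le hL'L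
  have hadj := modularFunctionFieldBar_eq_adjoin L'
  rw [hadj] at hx
  revert hxL
  induction hx using IntermediateField.adjoin_induction with
  | mem y hy =>
    intro hyL
    obtain ⟨d, hne, hd, rfl⟩ := hy
    have h1 : (⟨jdSeries d, hyL⟩ : FN L) = gF L ⟨d, hd.trans hL'L⟩ := Subtype.ext rfl
    rw [h1, frickeEnd_gF]
    have hdpos : 0 < d := Nat.pos_of_ne_zero (NeZero.ne d)
    haveI : NeZero (L / d) := ⟨(Nat.div_pos (Nat.le_of_dvd
      (Nat.pos_of_ne_zero (NeZero.ne L)) (hd.trans hL'L)) hdpos).ne'⟩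
    show jdSeries (L / d) ∈ _
    have e : L / d = q * (L' / d) := by
      obtain ⟨c, rfl⟩ := hd
      rw [hL, Nat.mul_div_cancel_left _ hdpos, mul_assoc, Nat.mul_div_cancel_left _ hdpos,
        mul_comm]
    haveI : NeZero (L' / d) := ⟨(Nat.div_pos (Nat.le_of_dvd
      (Nat.pos_of_ne_zero (NeZero.ne L')) hd) hdpos).ne'⟩
    haveI : NeZero (q * (L' / d)) := ⟨Nat.mul_ne_zero (NeZero.ne q) (NeZero.ne _)⟩
    rw [jdSeries_congr _ ‹NeZero (q * (L' / d))› e, jdSeries_mul]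
    exact ⟨_, rfl⟩
  | algebraMap c =>
    intro h
    have h1 : (⟨algebraMap Kbar (LaurentSeries Kbar) c, h⟩ : FN L) = algebraMap Kbar (FN L) c :=
      rfl
    rw [h1, AlgHom.commutes]
    show algebraMap Kbar (LaurentSeries Kbar) c ∈ _
    refine ⟨algebraMap Kbar (LaurentSeries Kbar) c, ?_⟩
    rw [algebraMap_laurentSeries_eq_single, qExpand_single, mul_zero]
  | add y z hy hz ihy ihz =>
    intro h
    have hyL : y ∈ modularFunctionFieldBar L := hle (hadj ▸ hy)
    have hzL : z ∈ modularFunctionFieldBar L := hle (hadj ▸ hz)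
    have h1 : (⟨y + z, h⟩ : FN L) = ⟨y, hyL⟩ + ⟨z, hzL⟩ := rfl
    rw [h1, map_add]
    exact add_mem (ihy hyL) (ihz hzL)
  | inv y hy ihy =>
    intro h
    have hyL : y ∈ modularFunctionFieldBar L := hle (hadj ▸ hy)
    have h1 : (⟨y⁻¹, h⟩ : FN L) = (⟨y, hyL⟩ : FN L)⁻¹ := rfl
    rw [h1, map_inv₀]
    exact inv_mem (ihy hyL)
  | mul y z hy hz ihy ihz =>
    intro h
    have hyL : y ∈ modularFunctionFieldBar L := hle (hadj ▸ hy)
    have hzL : z ∈ modularFunctionFieldBar L := hle (hadj ▸ hz)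
    have h1 : (⟨y * z, h⟩ : FN L) = ⟨y, hyL⟩ * ⟨z, hzL⟩ := rfl
    rw [h1, map_mul]
    exact mul_mem (ihy hyL) (ihz hzL)

/-- **`F_M ⊄ F_{L'}`** when `M ∣ L = L' * q` carries the full `q`-power of `L`. -/
theorem not_le_of_not_dvd {M : ℕ} [NeZero M] (hL : L = L' * q) (hML : M ∣ L)
    (hq : ¬ q ∣ L / M) : ¬ modularFunctionFieldBar M ≤ modularFunctionFieldBar L' := by
  intro hle
  have hM : jdSeries M ∈ modularFunctionFieldBar M := jdSeries_mem M dvd_rfl
  have hML' : jdSeries M ∈ modularFunctionFieldBar L' := hle hM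
  have hMLL : jdSeries M ∈ modularFunctionFieldBar L := fk_le hML hM
  have h := coe_frickeEnd_mem_fieldRange hL hML' hMLL
  have h1 : (⟨jdSeries M, hMLL⟩ : FN L) = gF L ⟨M, hML⟩ := Subtype.ext rfl
  rw [h1, frickeEnd_gF] at h
  haveI : NeZero (L / M) := ⟨(Nat.div_pos (Nat.le_of_dvd
      (Nat.pos_of_ne_zero (NeZero.ne L)) hML) (Nat.pos_of_ne_zero (NeZero.ne M))).ne'⟩
  change jdSeries (L / M) ∈ _ at h
  exact jdSeries_not_mem_fieldRange (q := q) (d := L / M) hq h

/-- **`F_M ⊔ F_{L'} = F_L`** for `L = L' * q`, `q` prime, `q ∣ L'`, `M ∣ L`, `q ∤ L / M`;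
no coprimality of degrees. -/
theorem sup_eq_all {M : ℕ} [NeZero M] (hqp : q.Prime) (hqL' : q ∣ L') (hL : L = L' * q)
    (hML : M ∣ L) (hq : ¬ q ∣ L / M) :
    modularFunctionFieldBar M ⊔ modularFunctionFieldBar L' = modularFunctionFieldBar L := by
  have hL'L : L' ∣ L := ⟨q, hL⟩
  have h1 : modularFunctionFieldBar L' ≤ modularFunctionFieldBar M ⊔ modularFunctionFieldBar L' :=
    le_sup_right
  have h2 : modularFunctionFieldBar M ⊔ modularFunctionFieldBar L' ≤ modularFunctionFieldBar L :=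
    sup_le (fk_le hML) (fk_le hL'L)
  have hdeg : relfinrank (modularFunctionFieldBar L') (modularFunctionFieldBar L) = q := by
    subst hL
    exact relfinrank_mul_prime_of_dvd hqp hqL'
  have e := relfinrank_mul_relfinrank h1 h2
  rw [hdeg] at e
  rcases (Nat.dvd_prime hqp).mp ⟨_, e.symm⟩ with h | h
  · exfalso
    have hle : modularFunctionFieldBar M ⊔ modularFunctionFieldBar L' ≤ modularFunctionFieldBar L' :=
      relfinrank_eq_one_iff.mp h
    exact not_le_of_not_dvd hL hML hq (le_sup_left.trans hle)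
  · rw [h] at e
    have h3 : relfinrank (modularFunctionFieldBar M ⊔ modularFunctionFieldBar L')
        (modularFunctionFieldBar L) = 1 := by
      have := Nat.eq_of_mul_eq_mul_left hqp.pos (e.trans (mul_one q).symm)
      exact this
    exact le_antisymm h2 (relfinrank_eq_one_iff.mp h3)

end Fricke

/-! ### the norm square `π_* ∘ ι = ι' ∘ π_*` without degree conditions -/

section Square

variable {N' M L' L q : ℕ} [NeZero N'] [NeZero M] [NeZero L'] [NeZero L] [NeZero q] (m : ℕ)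

/-- **the `α`-square for all `q`**: levels `M = N' * q`, `L = L' * q`, `N' ∣ L'`, `q ∣ N'` prime,
`q ∤ L / M`.  (`L' = N' * r`: `L / M = r`.) -/
theorem kumNorm_kumIncl_sq_all (hqp : q.Prime) (hqN' : q ∣ N') (hM : M = N' * q)
    (hN'L' : N' ∣ L') (hL : L = L' * q) (hML : M ∣ L) (hq : ¬ q ∣ L / M)
    (x : Additive (Kum Kb (FK M) m)) :
    kumNorm m (⟨q, hL⟩ : L' ∣ L) (kumIncl m hML x) =
      kumIncl m hN'L' (kumNorm m (⟨q, hM⟩ : N' ∣ M) x) := by
  have hqL' : q ∣ L' := hqN'.trans hN'L'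
  have hdeg : relfinrank (modularFunctionFieldBar L') (modularFunctionFieldBar L) =
      relfinrank (modularFunctionFieldBar N') (modularFunctionFieldBar M) := by
    subst hL hM
    rw [relfinrank_mul_prime_of_dvd hqp hqL', relfinrank_mul_prime_of_dvd hqp hqN']
  exact kumNorm_kumIncl_square m ⟨q, hM⟩ ⟨q, hL⟩ hML hN'L' hdeg
    (adjoin_eq_top_of_sup ⟨q, hL⟩ hML (sup_eq_all hqp hqL' hL hML hq)) x

omit [NeZero q] in
/-- `(N' * q * r) / (N' * q) = r` is prime to `q` for a prime `r ∤ N' * q` -/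
theorem not_dvd_div_aux {r : ℕ} (hqp : q.Prime) (hr : r.Prime) (hrM : ¬ r ∣ N' * q)
    {L₀ : ℕ} (hL₀ : L₀ = N' * q * r) : ¬ q ∣ L₀ / (N' * q) := by
  have hpos : 0 < N' * q := Nat.mul_pos (Nat.pos_of_ne_zero (NeZero.ne N')) hqp.pos
  rw [hL₀, Nat.mul_div_cancel_left _ hpos]
  intro h
  rcases (Nat.dvd_prime hr).mp h with h1 | h1
  · exact hqp.one_lt.ne' h1
  · exact hrM (h1 ▸ Dvd.intro_left N' rfl)

/-- **helper17's `kumNorm_kumIncl_aux_sq` without `q ∤ r + 1`** (same shape: `L = N' * q * r`,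
`L' = N' * r`). -/
theorem kumNorm_kumIncl_aux_sq_all {r : ℕ} [NeZero r] (hqp : q.Prime) (hr : r.Prime)
    (hqN' : q ∣ N') (hrM : ¬ r ∣ N' * q) (x : Additive (Kum Kb (FK (N' * q)) m)) :
    kumNorm m (Nat.mul_dvd_mul_right (Dvd.intro q rfl : N' ∣ N' * q) r)
        (kumIncl m (Dvd.intro r rfl : N' * q ∣ N' * q * r) x) =
      kumIncl m (Dvd.intro r rfl : N' ∣ N' * r)
        (kumNorm m (Dvd.intro q rfl : N' ∣ N' * q) x) :=
  kumNorm_kumIncl_sq_all m hqp hqN' rfl (Dvd.intro r rfl) (Nat.mul_right_comm N' q r)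
    (Dvd.intro r rfl) (not_dvd_div_aux hqp hr hrM rfl) x

/-- the same with the top level written `N' * r * q` (the shape of `betaB (N' * r) q`) -/
theorem kumNorm_kumIncl_aux_sq_all' {r : ℕ} [NeZero r] (hqp : q.Prime) (hr : r.Prime)
    (hqN' : q ∣ N') (hrM : ¬ r ∣ N' * q) (x : Additive (Kum Kb (FK (N' * q)) m)) :
    kumNorm m (Dvd.intro q rfl : N' * r ∣ N' * r * q)
        (kumIncl m (⟨r, Nat.mul_right_comm N' r q⟩ : N' * q ∣ N' * r * q) x) =
      kumIncl m (Dvd.intro r rfl : N' ∣ N' * r)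
        (kumNorm m (Dvd.intro q rfl : N' ∣ N' * q) x) :=
  kumNorm_kumIncl_sq_all m hqp hqN' rfl (Dvd.intro r rfl) rfl
    ⟨r, Nat.mul_right_comm N' r q⟩
    (not_dvd_div_aux hqp hr hrM (Nat.mul_right_comm N' r q)) x

end Square

end Fermat.Agent.GL.Descent.SupAll
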